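import Fermat.Agent.S27.CH.Model

/-!
# S27, block CH, file 5 : construction of a model from `(t, u)`

`t` transcendental, `F/ℂ(t)` finite of degree `n`, `u` integral over `A := Algebra.adjoin ℂ {t}`, `Z` a set of `≥ n` zeros of `t` on which `u` is injective.  Then `(t,u)` is a model and `0 ∉ bad`.
`open scoped IntermediateField.algebraAdjoinAdjoin` gives `Algebra A ℂ⟮t⟯`, `IsFractionRing A ℂ⟮t⟯`, `IsScalarTower A ℂ⟮t⟯ F`; `S24.isPrincipalIdealRing_adjoin t ht` (so `A` is integrally closed).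

* [S27/CH-F1] `exists_minpoly` (~150 lines).  `e : ℂ[X] ≃ₐ[ℂ] A` (`aeval t` is injective since `t` is transcendental, with range `A`: `Algebra.adjoin_singleton_eq_range_aeval`, `AlgEquiv.ofInjective`; see the proof of
  `S24.isPrincipalIdealRing_adjoin`).  `p := minpoly A u`, `f := p.map e.symm`.  `bev t u N = aeval u (N.map e)` (`eval₂_map`/`Polynomial.aeval_def`; `algebraMap A F (e q) = aeval t q`).  Monic: `minpoly.monic hu`, `Monic.map`.
  `dvd`: `minpoly.isIntegrallyClosed_dvd hu`, then map by `e.symm`.  Degree: `minpoly.isIntegrallyClosed_eq_field_fractions' ℂ⟮t⟯ hu : minpoly ℂ⟮t⟯ u = (minpoly A u).map (algebraMap A ℂ⟮t⟯)`, `Monic.natDegree_map`.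
* [S27/CH-F2] `frac_of_top` (~100 lines).  `(ℂ⟮t⟯⟮u⟯).restrictScalars ℂ = adjoin ℂ {t,u}` (`IntermediateField.adjoin_adjoin_left`), so `adjoin ℂ {t,u} = ⊤`; `IntermediateField.mem_adjoin_iff_div`: `z = r/s`, `r s ∈ Algebra.adjoin ℂ {t,u}`;
  every element of `Algebra.adjoin ℂ {t,u}` is `bev t u N` (`Algebra.adjoin_induction`, or: the range of `bev t u` is a subalgebra containing `t`, `u`).  If `s = 0` then `z = 0`: take `a = 0`, `b = 1`.
* [S27/CH-F3] `exists_model_of` (~150 lines).  `f` from `exists_minpoly`; `d := f.natDegree = (minpoly ℂ⟮t⟯ u).natDegree ≤ n` (`minpoly.natDegree_le`).  `p₀ := f.map (evalRingHom 0)` is monic of degree `d`;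
  for `P ∈ Z`: `Reg P t`, `val P t = 0`, `Reg P u` (`S24.mem_valuationSubring_of_isIntegral` + `S24.adjoin_le_valuationSubring`), `p₀.eval (val P u) = evalEval 0 (val P u) f = val P (bev t u f) = 0`
  (`Polynomial.map_evalRingHom_eval`, `val_bev`).  `simple_of_card p₀ _ (Z.image (val · u))` (`Finset.card_image_of_injOn`): `d = #Z ≥ n`, so `d = n`, and all roots of `p₀` are simple, i.e. `0 ∉ bad` (`derivative_map`).
  `d = n` ⇒ `ℂ⟮t⟯⟮u⟯ = ⊤` (`IntermediateField.adjoin.finrank`, `IntermediateField.finrank_eq_...`/`eq_top_of_finrank_eq`), `frac_of_top`.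
-/

set_option autoImplicit false

noncomputable section

namespace Fermat.Agent.S27

open AlgebraicCurve Fermat.Agent.S37 Polynomial IntermediateField

variable {F : Type*} [Field F] [Algebra ℂ F]

open scoped IntermediateField.algebraAdjoinAdjoin in
/-- [S27/CH-F1] -/
theorem exists_minpoly (t u : F) (ht : Transcendental ℂ t)
    (hu : IsIntegral (Algebra.adjoin ℂ {t}) u) : ∃ f : ℂ[X][X], f.Monic ∧ bev t u f = 0 ∧
      (∀ N : ℂ[X][X], bev t u N = 0 → f ∣ N) ∧ f.natDegree = (minpoly ℂ⟮t⟯ u).natDegree := by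
  have := S24.isPrincipalIdealRing_adjoin t ht
  let e : ℂ[X] ≃ₐ[ℂ] Algebra.adjoin ℂ {t} := Polynomial.algEquivOfTranscendental ℂ t ht
  have he : ∀ q : ℂ[X], algebraMap (Algebra.adjoin ℂ {t}) F (e q) = aeval t q := by
    intro q
    simp [e]
  have hbev : ∀ N : ℂ[X][X], bev t u N = aeval u (N.map (e : ℂ[X] →+* Algebra.adjoin ℂ {t})) := by
    intro N
    rw [aeval_def, eval₂_map]
    show eval₂ _ u N = _
    congr 1
    ext q
    · simp [e]
    · simp [e]
  have hmm : ∀ q : (Algebra.adjoin ℂ {t})[X],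
      (q.map (e.symm : Algebra.adjoin ℂ {t} →+* ℂ[X])).map (e : ℂ[X] →+* Algebra.adjoin ℂ {t}) =
        q := by
    intro q
    rw [Polynomial.map_map]
    have : (e : ℂ[X] →+* Algebra.adjoin ℂ {t}).comp (e.symm : Algebra.adjoin ℂ {t} →+* ℂ[X]) =
        RingHom.id _ := by
      ext x
      simp
    rw [this, Polynomial.map_id]
  have hmm' : ∀ N : ℂ[X][X],
      (N.map (e : ℂ[X] →+* Algebra.adjoin ℂ {t})).map (e.symm : Algebra.adjoin ℂ {t} →+* ℂ[X]) =
        N := by
    intro N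
    rw [Polynomial.map_map]
    have : (e.symm : Algebra.adjoin ℂ {t} →+* ℂ[X]).comp (e : ℂ[X] →+* Algebra.adjoin ℂ {t}) =
        RingHom.id _ := by
      ext x
      · simp
      · simp
    rw [this, Polynomial.map_id]
  refine ⟨(minpoly (Algebra.adjoin ℂ {t}) u).map (e.symm : Algebra.adjoin ℂ {t} →+* ℂ[X]),
    (minpoly.monic hu).map _, ?_, ?_, ?_⟩
  · rw [hbev, hmm, minpoly.aeval]
  · intro N hN
    rw [hbev] at hN
    have h1 := minpoly.isIntegrallyClosed_dvd hu hN
    have h2 := Polynomial.map_dvd (e.symm : Algebra.adjoin ℂ {t} →+* ℂ[X]) h1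
    rwa [hmm'] at h2
  · rw [(minpoly.monic hu).natDegree_map, minpoly.isIntegrallyClosed_eq_field_fractions' ℂ⟮t⟯ hu,
      (minpoly.monic hu).natDegree_map]

/-- [S27/CH-F2] -/
theorem frac_of_top (t u : F) (htop : ℂ⟮t⟯⟮u⟯ = ⊤) (z : F) :
    ∃ a b : ℂ[X][X], bev t u b ≠ 0 ∧ z * bev t u b = bev t u a := by
  have h1 : z ∈ IntermediateField.adjoin ℂ ({t} ∪ {u} : Set F) := by
    rw [← IntermediateField.adjoin_adjoin_left, IntermediateField.mem_restrictScalars, htop]
    exact IntermediateField.mem_top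
  let B : Subalgebra ℂ F :=
    { (bev t u).range with algebraMap_mem' := fun a => ⟨C (C a), bev_CC t u a⟩ }
  have hB : Algebra.adjoin ℂ ({t} ∪ {u} : Set F) ≤ B := by
    apply Algebra.adjoin_le
    rintro x (hx | hx)
    · rw [Set.mem_singleton_iff.mp hx]; exact ⟨C X, bev_CX t u⟩
    · rw [Set.mem_singleton_iff.mp hx]; exact ⟨X, bev_X t u⟩
  obtain ⟨r, hr, s, hs, hz⟩ := IntermediateField.mem_adjoin_iff_div.mp h1
  obtain ⟨a, ha⟩ := hB hr
  obtain ⟨b, hb⟩ := hB hs
  by_cases hs0 : s = 0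
  · refine ⟨0, 1, by simp, ?_⟩
    rw [hz, hs0]
    simp
  · refine ⟨a, b, by rw [hb]; exact hs0, ?_⟩
    rw [ha, hb, hz, div_mul_cancel₀ _ hs0]

/-- [S27/CH-F3] -/
theorem exists_model_of (t u : F) (ht : Transcendental ℂ t) (hfin : FiniteDimensional ℂ⟮t⟯ F)
    (hu : IsIntegral (Algebra.adjoin ℂ {t}) u) (Z : Finset (Place ℂ F))
    (hZ : ∀ P ∈ Z, 0 < P.ord t) (hcard : Module.finrank ℂ⟮t⟯ F ≤ Z.card)
    (hinj : Set.InjOn (fun P : Place ℂ F => val P u) Z) :
    ∃ M : Model F, M.x = t ∧ (0 : ℂ) ∉ M.bad := by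
  classical
  have hFF : IsFF ℂ F := ⟨t, ht, hfin⟩
  obtain ⟨f, hmonic, hzero, hdvd, hdeg⟩ := exists_minpoly t u ht hu
  have hint : ∀ P : Place ℂ F, Reg P t → Reg P u := fun P hP =>
    S24.mem_valuationSubring_of_isIntegral (A := Algebra.adjoin ℂ {t}) P.toValuationSubring
      (S24.adjoin_le_valuationSubring t _ P.algebraMap_mem' hP) hu
  have hdle : f.natDegree ≤ Module.finrank ℂ⟮t⟯ F := by
    rw [hdeg]
    exact minpoly.natDegree_le u
  have hp₀m : (f.map (evalRingHom (0 : ℂ))).Monic := hmonic.map _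
  have hp₀d : (f.map (evalRingHom (0 : ℂ))).natDegree = f.natDegree := hmonic.natDegree_map _
  have hroot : ∀ a ∈ Z.image (fun P : Place ℂ F => val P u),
      (f.map (evalRingHom (0 : ℂ))).eval a = 0 := by
    intro a ha
    obtain ⟨P, hP, rfl⟩ := Finset.mem_image.mp ha
    have hreg : Reg P t := reg_iff.mpr (hZ P hP).le
    have hv : val P t = 0 := (val_eq_zero_iff hFF hreg).mpr (Or.inr (hZ P hP))
    have h3 : evalEval (val P t) (val P u) f = 0 := by
      rw [← val_bev hFF P hreg (hint P hreg), hzero]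
      simpa using val_algebraMap hFF P 0
    rw [hv] at h3
    rw [map_evalRingHom_eval]
    exact h3
  have hcardim : (Z.image fun P : Place ℂ F => val P u).card = Z.card :=
    Finset.card_image_of_injOn hinj
  obtain ⟨hd, hsimple⟩ := simple_of_card _ hp₀m.ne_zero _ hroot (by rw [hp₀d, hcardim]; omega)
  have hdn : f.natDegree = Module.finrank ℂ⟮t⟯ F := by omega
  have htop : ℂ⟮t⟯⟮u⟯ = ⊤ := by
    rw [Field.primitive_element_iff_minpoly_natDegree_eq, ← hdeg, hdn]
  refine ⟨{ x := t, u := u, f := f, tr := ht, fin := hfin, monic := hmonic, zero := hzero,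
            dvd := hdvd, frac := frac_of_top t u htop, int := hint }, rfl, ?_⟩
  rintro ⟨y, h1, h2⟩
  apply (hsimple y (by rw [map_evalRingHom_eval]; exact h1)).2
  rw [derivative_map, map_evalRingHom_eval]
  exact h2

end Fermat.Agent.S27
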