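import Fermat.Agent.S27.CH.Dens

/-!
# S27, block CH, file 6 : the chart of a model at a zero of `x`, when `0 ∉ bad`   (CH4 + CH5)

[S27/CH-C] `Model.exists_chart` (~250 lines).  `R` lies over `(0,y₀)`, `y₀ = val R u`; `f_Y(0,y₀) ≠ 0` since `0 ∉ bad`.  `exists_branch` : `r₁`, `Y`.  `bad` is finite, so closed: `r₂` with `ball 0 r₂ ∩ bad = ∅`.
`r = min r₁ r₂`.  `pl σ :=` a place over `(σ, Y σ)` (`exists_place`; junk `R` outside the ball); `pl 0 = R` by `place_unique`.  `t = x`, `exc = ∅`.  `ord_t` = `M.ord_sub`.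
`reg`: `z * bev b = bev a`, `b(σ₀,Y σ₀) ≠ 0` (`exists_quot`); `σ ↦ b(σ,Y σ)` is analytic at `σ₀` (`analyticAt_evalEval`), so `≠ 0` near `σ₀`; there `bev b` is a unit at `pl σ`, `z = bev a / bev b` is regular with value
`a(σ,Y σ)/b(σ,Y σ)`.   `dens`: `G` from `exists_dens`, `η := bev G / bev f_Y`.
-/

set_option autoImplicit false

noncomputable section

namespace Fermat.Agent.S27

open AlgebraicCurve Fermat.Agent.S37 Polynomial IntermediateField Topology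

variable {F : Type*} [Field F] [Algebra ℂ F]

/-- a quotient `bev a / bev b` with `b(c,y) ≠ 0` is regular at a place over `(c,y)` -/
theorem Model.quot_of_over {M : Model F} {P : Place ℂ F} {c y : ℂ} (h : M.Over P c y) {z : F}
    {a b : ℂ[X][X]} (hb : evalEval c y b ≠ 0) (hz : z * bev M.x M.u b = bev M.x M.u a) :
    Reg P z ∧ val P z = evalEval c y a / evalEval c y b := by
  have hFF := M.isFF
  have hbreg := h.reg b
  have hbval := h.val b
  have hb0 : bev M.x M.u b ≠ 0 := by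
    intro h0
    rw [h0] at hbval
    apply hb
    rw [← hbval]
    simpa using val_algebraMap hFF P 0
  have hnv : ¬ Van P (bev M.x M.u b) := fun hv =>
    hb (by rw [← hbval]; exact (val_eq_zero_iff hFF hbreg).mpr hv)
  have hord : P.ord (bev M.x M.u b) = 0 := by
    have h1 : 0 ≤ P.ord (bev M.x M.u b) := reg_iff.mp hbreg
    have h2 : ¬ 0 < P.ord (bev M.x M.u b) := fun h => hnv (Or.inr h)
    omega
  have hinv : Reg P (bev M.x M.u b)⁻¹ := reg_iff.mpr (by rw [Place.ord_inv, hord]; simp)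
  have hzeq : z = bev M.x M.u a * (bev M.x M.u b)⁻¹ := by
    rw [← hz, mul_assoc, mul_inv_cancel₀ hb0, mul_one]
  refine ⟨?_, ?_⟩
  · rw [hzeq]
    exact P.toValuationSubring.mul_mem _ _ (h.reg a) hinv
  · rw [hzeq, val_mul hFF (h.reg a) hinv, val_inv hFF hord hb0, h.val, h.val, div_eq_mul_inv]

/-- [S27/CH-C] -/
theorem Model.exists_chart (M : Model F) (R : Place ℂ F) (hR : 0 < R.ord M.x)
    (h0 : (0 : ℂ) ∉ M.bad) : ∃ χ : Chart F, χ.pl 0 = R ∧ χ.exc = ∅ := by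
  have hFF := M.isFF
  have hRreg : Reg R M.x := reg_iff.mpr hR.le
  have hRval : val R M.x = 0 := (val_eq_zero_iff hFF hRreg).mpr (Or.inr hR)
  have hRover : M.Over R 0 (val R M.u) := ⟨hRreg, hRval, rfl⟩
  have hf0 := hRover.eval_f
  have hs0 : evalEval 0 (val R M.u) (derivative M.f) ≠ 0 := fun h => h0 ⟨_, hf0, h⟩
  obtain ⟨r₁, hr₁, Y, hY0, hYan, hYf⟩ := exists_branch M.f 0 (val R M.u) hf0 hs0
  obtain ⟨r₂, hr₂, hball⟩ : ∃ r₂ > 0, Metric.ball (0 : ℂ) r₂ ⊆ M.badᶜ :=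
    Metric.mem_nhds_iff.mp (M.bad_finite.isClosed.isOpen_compl.mem_nhds h0)
  have hsub₁ : Metric.ball (0 : ℂ) (min r₁ r₂) ⊆ Metric.ball 0 r₁ :=
    Metric.ball_subset_ball (min_le_left _ _)
  have hsub₂ : Metric.ball (0 : ℂ) (min r₁ r₂) ⊆ Metric.ball 0 r₂ :=
    Metric.ball_subset_ball (min_le_right _ _)
  let pl : ℂ → Place ℂ F := fun σ =>
    if h : evalEval σ (Y σ) M.f = 0 then (M.exists_place σ (Y σ) h).choose else R
  have hpl : ∀ σ ∈ Metric.ball (0 : ℂ) (min r₁ r₂), M.Over (pl σ) σ (Y σ) := by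
    intro σ hσ
    have h := hYf σ (hsub₁ hσ)
    simp only [pl, dif_pos h]
    exact (M.exists_place σ (Y σ) h).choose_spec
  have hsm : ∀ σ ∈ Metric.ball (0 : ℂ) (min r₁ r₂),
      evalEval σ (Y σ) (derivative M.f) ≠ 0 := by
    intro σ hσ h
    exact hball (hsub₂ hσ) ⟨Y σ, hYf σ (hsub₁ hσ), h⟩
  have hrpos : 0 < min r₁ r₂ := lt_min hr₁ hr₂
  have h0mem : (0 : ℂ) ∈ Metric.ball (0 : ℂ) (min r₁ r₂) := Metric.mem_ball_self hrpos
  have hpl0 : pl 0 = R := by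
    have h1 := hpl 0 h0mem
    rw [hY0] at h1
    exact M.place_unique h1 hRover hs0
  have hd0 : bev M.x M.u (derivative M.f) ≠ 0 := by
    intro h
    apply hs0
    rw [← hRover.val, h]
    simpa using val_algebraMap hFF R 0
  refine ⟨{ t := M.x, r := min r₁ r₂, pl := pl, exc := ∅, r_pos := hrpos,
            exc_fin := Set.finite_empty, ord_t := ?_, reg := ?_, dens := ?_ }, hpl0, rfl⟩
  · intro σ hσ
    exact M.ord_sub (hpl σ hσ) (hsm σ hσ)
  · intro σ₀ hσ₀ z hz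
    obtain ⟨a, b, hb, hzab⟩ := M.exists_quot (hpl σ₀ hσ₀) (hsm σ₀ hσ₀) hz
    have han : ∀ N : ℂ[X][X], AnalyticAt ℂ (fun σ => evalEval σ (Y σ) N) σ₀ := fun N =>
      analyticAt_evalEval N analyticAt_id (hYan σ₀ (hsub₁ hσ₀))
    have hev : ∀ᶠ σ in 𝓝 σ₀, σ ∈ Metric.ball (0 : ℂ) (min r₁ r₂) ∧ evalEval σ (Y σ) b ≠ 0 :=
      (Metric.isOpen_ball.eventually_mem hσ₀).and ((han b).continuousAt.eventually_ne hb)
    refine ⟨hev.mono fun σ hσ => (Model.quot_of_over (hpl σ hσ.1) hσ.2 hzab).1, ?_⟩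
    refine ((han a).div (han b) hb).congr ?_
    exact hev.mono fun σ hσ => (Model.quot_of_over (hpl σ hσ.1) hσ.2 hzab).2.symm
  · intro ω
    obtain ⟨G, hG⟩ := M.exists_dens ω
    have hη : bev M.x M.u G * (bev M.x M.u (derivative M.f))⁻¹ * bev M.x M.u (derivative M.f) =
        bev M.x M.u G := by
      rw [mul_assoc, inv_mul_cancel₀ hd0, mul_one]
    refine ⟨bev M.x M.u G * (bev M.x M.u (derivative M.f))⁻¹, fun σ hσ =>
      (Model.quot_of_over (hpl σ hσ) (hsm σ hσ) hη).1, fun σ hσ _ => ?_⟩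
    rw [(Model.quot_of_over (hpl σ hσ) (hsm σ hσ) hη).2, eq_div_iff (hsm σ hσ)]
    exact hG (pl σ) σ (Y σ) (hpl σ hσ) (hball (hsub₂ hσ))

end Fermat.Agent.S27
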