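import Fermat.Agent.S27.AR.Main
import Fermat.Agent.S27.AJ.Cls
import Fermat.Agent.S24.Embed

/-!
# S27, block CH, file 4 : a good coordinate `t` at a given place `R`, and a function `u` separating the zeros of `t`

NEW IDEA (replaces CH7/CH8 of the blueprint: no norm formula, no primitive element theorem, NO exceptional parameters): choose `t` with a zero at `R` and ONLY SIMPLE zeros.

* [S27/CH-T] `exists_coord` (~150 lines; uses only `AR/Main.lean`: `exists_nonspecial`, `rr`, `finrank_H1_mono`, `finite_L`).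
  `g = genusFF`.  `exists_nonspecial h {R}` : `P' : Fin g → Place`, injective, `P' i ≠ R`, `finrank H1(sumPl P') = 0`.  `D := single R 1 + sumPl P'`, so `D - single R 1 = sumPl P'`, `sumPl P' ≤ D`,
  `finrank H1 D = 0` (`finrank_H1_mono`).  `degree (sumPl P') = g`, `degree D = g + 1` (`Divisor.degree_single`, `h.deg_eq_one`, `map_sum`).  `rr`: `l(D) = 2`, `l(sumPl P') = 1`.  `L(sumPl P') ≤ L(D)`
  (`mem_riemannRochSpace_iff`), finrank differ, so there is `y ∈ L(D)`, `y ∉ L(sumPl P')` (`Submodule.finrank_mono`/`eq_of_le_of_finrank_eq`/`SetLike.exists_of_lt`; `finite_L`).  `y ≠ 0`.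
  For all `P`: `- D P ≤ ord_P y` and `D P ≤ 1` (`D P = [P = R] + #{i | P' i = P}`, `P'` injective avoiding `R`; `Finsupp.single_apply`, `Finsupp.finset_sum_apply`).  Since `y ∉ L(sumPl P')` there is `P` with
  `ord_P y < - (sumPl P') P`; if `P ≠ R` then `(sumPl P') P = D P`, contradiction; so `ord_R y < 0` (`(sumPl P') R = 0`), `ord_R y = -1`.  `t := y⁻¹` (`Place.ord_inv`).
* [S27/CH-U] `exists_sep` (~150 lines).  `A := Algebra.adjoin ℂ {t}`, `O := integralClosure A F` is a Dedekind domain with fraction field `F` (copy the `have` block of `S24.finite_zeroPlaces` / `S24.exists_place_of_valuationSubring`).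
  Each `P ∈ Z` is `Place.ofHeightOneSpectrum w_P` (`S24.exists_heightOneSpectrum_of_le'` with `S24.adjoin_le_valuationSubring`), `P ↦ w_P` injective.  Chinese remainder theorem
  `IsDedekindDomain.exists_forall_sub_mem_ideal` (`P i := (w i).asIdeal`, `e i = 1`, `x i := algebraMap ℂ O (c i)` with `c : Z → ℂ` injective, e.g. `c P = (Z.equivFin P : ℕ)`): `u₀ : O` with `u₀ - c_P ∈ w_P`.
  `u := (u₀ : F)` is integral over `A`; `0 < ord_P (u - c_P)` or `u = c_P` (`S24.ord_algebraMap_pos_iff`), so `val P u = c_P` (`val_eq_of_van`).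
-/

set_option autoImplicit false

noncomputable section

namespace Fermat.Agent.S27

open AlgebraicCurve Fermat.Agent.S37 IntermediateField IsDedekindDomain

variable {F : Type*} [Field F] [Algebra ℂ F]

/-- [S27/CH-T] a function with a simple zero at `R` and only simple zeros -/
theorem exists_coord (h : IsFF ℂ F) (R : Place ℂ F) :
    ∃ t : F, R.ord t = 1 ∧ ∀ P : Place ℂ F, 0 < P.ord t → P.ord t = 1 := by
  classical
  obtain ⟨P', hinj, havoid, hH1⟩ := exists_nonspecial h {R} (Set.finite_singleton R)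
  have hne : ∀ k, P' k ≠ R := fun k hk => havoid k (by rw [hk]; exact Set.mem_singleton R)
  set D₀ : Divisor ℂ F := sumPl P' with hD₀
  set D : Divisor ℂ F := Finsupp.single R 1 + D₀ with hD
  have hle : D₀ ≤ D := by
    intro v
    rw [hD, Finsupp.add_apply, Finsupp.single_apply]
    split_ifs <;> simp
  have hH1D : Module.finrank ℂ (H1 D) = 0 := by
    have := finrank_H1_mono h hle
    omega
  have hdeg₀ : Divisor.degree D₀ = genusFF ℂ F := degree_sumPl h P'
  have hdeg : Divisor.degree D = genusFF ℂ F + 1 := by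
    rw [hD, map_add, hdeg₀, Divisor.degree_single, h.deg_eq_one]
    ring
  have hl₀ : Module.finrank ℂ (riemannRochSpace D₀) = 1 := by
    have := rr h D₀
    rw [hH1, hdeg₀] at this
    push_cast at this
    omega
  have hl : Module.finrank ℂ (riemannRochSpace D) = 2 := by
    have := rr h D
    rw [hH1D, hdeg] at this
    push_cast at this
    omega
  have hLle : riemannRochSpace D₀ ≤ riemannRochSpace D := by
    intro f hf
    rw [mem_riemannRochSpace_iff] at hf ⊢
    intro v
    rcases hf v with h0 | h1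
    · exact Or.inl h0
    · right
      have := hle v
      omega
  have hlt : riemannRochSpace D₀ < riemannRochSpace D := by
    refine lt_of_le_of_ne hLle fun heq => ?_
    rw [heq, hl] at hl₀
    omega
  obtain ⟨y, hyD, hyD₀⟩ := SetLike.exists_of_lt hlt
  have hy0 : y ≠ 0 := fun h0 => hyD₀ (h0 ▸ zero_mem _)
  rw [mem_riemannRochSpace_iff] at hyD hyD₀
  simp only [not_forall, not_or, not_le] at hyD₀
  obtain ⟨v, -, hv⟩ := hyD₀
  have hyD' : ∀ v, - D v ≤ v.ord y := fun v => (hyD v).resolve_left hy0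
  have hDR : D R = 1 := by
    rw [hD, Finsupp.add_apply, Finsupp.single_eq_same, hD₀, sumPl_apply_of_ne hne, add_zero]
  have hD1 : ∀ v, D v ≤ 1 := by
    intro v
    by_cases hvR : v = R
    · rw [hvR, hDR]
    · rw [hD, Finsupp.add_apply, Finsupp.single_apply, if_neg (Ne.symm hvR), zero_add]
      exact sumPl_le_one hinj v
  have hvR : v = R := by
    by_contra hvR
    have h1 : D v = D₀ v := by
      rw [hD, Finsupp.add_apply, Finsupp.single_apply, if_neg (Ne.symm hvR), zero_add]
    have h2 := hyD' v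
    omega
  rw [hvR, hD₀, sumPl_apply_of_ne hne] at hv
  refine ⟨y⁻¹, ?_, fun P hP => ?_⟩
  · rw [Place.ord_inv]
    have := hyD' R
    omega
  · rw [Place.ord_inv] at hP ⊢
    have h1 := hyD' P
    have h2 := hD1 P
    omega

open scoped IntermediateField.algebraAdjoinAdjoin in
/-- [S27/CH-U] an integral function separating finitely many places where `t` is regular -/
theorem exists_sep (t : F) (ht : Transcendental ℂ t) (hfin : FiniteDimensional ℂ⟮t⟯ F)
    (Z : Finset (Place ℂ F)) (hZ : ∀ P ∈ Z, Reg P t) :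
    ∃ u : F, IsIntegral (Algebra.adjoin ℂ {t}) u ∧ Set.InjOn (fun P : Place ℂ F => val P u) Z := by
  have hFF : IsFF ℂ F := ⟨t, ht, hfin⟩
  have := S24.isPrincipalIdealRing_adjoin t ht
  have : CharZero ℂ⟮t⟯ := charZero_of_injective_algebraMap (algebraMap ℂ ℂ⟮t⟯).injective
  have := integralClosure.isDedekindDomain (Algebra.adjoin ℂ {t}) ℂ⟮t⟯ F
  have := integralClosure.isFractionRing_of_finite_extension (A := Algebra.adjoin ℂ {t}) ℂ⟮t⟯ F
  have : Module.Finite (Algebra.adjoin ℂ {t}) (integralClosure (Algebra.adjoin ℂ {t}) F) :=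
    IsIntegralClosure.finite (Algebra.adjoin ℂ {t}) ℂ⟮t⟯ F _
  have hw : ∀ P ∈ Z, ∃ w : HeightOneSpectrum (integralClosure (Algebra.adjoin ℂ {t}) F),
      P = Place.ofHeightOneSpectrum (K := ℂ) (F := F) w :=
    fun P hP => S24.exists_heightOneSpectrum_of_le' (A := Algebra.adjoin ℂ {t})
      (integralClosure (Algebra.adjoin ℂ {t}) F) P
      (S24.adjoin_le_valuationSubring t _ P.algebraMap_mem' (hZ P hP))
  rcases Z.eq_empty_or_nonempty with hZe | ⟨P₀, hP₀⟩
  · exact ⟨0, isIntegral_zero, by rw [hZe]; simp⟩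
  obtain ⟨w₀, -⟩ := hw P₀ hP₀
  have : Nonempty (HeightOneSpectrum (integralClosure (Algebra.adjoin ℂ {t}) F)) := ⟨w₀⟩
  choose! w hw using hw
  obtain ⟨u₀, hu₀⟩ := IsDedekindDomain.exists_forall_sub_mem_ideal (s := Z)
    (fun P => (w P).asIdeal) (fun _ => 1) (fun P _ => (w P).prime)
    (fun P hP Q hQ hne heq => hne (by
      rw [hw P hP, hw Q hQ]
      congr 1
      exact HeightOneSpectrum.ext heq))
    (fun P => algebraMap ℂ (integralClosure (Algebra.adjoin ℂ {t}) F) ((Z.equivFin P : ℕ) : ℂ))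
  have hval : ∀ P (hP : P ∈ Z), val P (u₀ : F) = ((Z.equivFin ⟨P, hP⟩ : ℕ) : ℂ) := by
    intro P hP
    apply val_eq_of_van hFF
    have h1 := hu₀ P hP
    rw [pow_one] at h1
    have hcoe : (u₀ : F) - algebraMap ℂ F ((Z.equivFin ⟨P, hP⟩ : ℕ) : ℂ) =
        algebraMap (integralClosure (Algebra.adjoin ℂ {t}) F) F
          (u₀ - algebraMap ℂ (integralClosure (Algebra.adjoin ℂ {t}) F)
            ((Z.equivFin ⟨P, hP⟩ : ℕ) : ℂ)) := by
      rw [map_sub, ← IsScalarTower.algebraMap_apply]
      rfl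
    by_cases h0 : u₀ - algebraMap ℂ (integralClosure (Algebra.adjoin ℂ {t}) F)
        ((Z.equivFin ⟨P, hP⟩ : ℕ) : ℂ) = 0
    · left
      rw [hcoe, h0, map_zero]
    · right
      rw [hcoe]
      have h2 := (S24.ord_algebraMap_pos_iff (K := ℂ) (F := F) (w P) h0).mpr h1
      rw [← hw P hP] at h2
      exact h2
  refine ⟨(u₀ : F), u₀.2, ?_⟩
  intro P hP Q hQ hPQ
  simp only at hPQ
  rw [hval P hP, hval Q hQ] at hPQ
  have h1 : (Z.equivFin ⟨P, hP⟩ : ℕ) = (Z.equivFin ⟨Q, hQ⟩ : ℕ) := by exact_mod_cast hPQ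
  have h2 := Z.equivFin.injective (Fin.ext h1)
  exact congrArg Subtype.val h2

end Fermat.Agent.S27
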