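import Fermat.Agent.S27.AR.Main
import Fermat.Agent.S27.CH.Chart
import Fermat.Agent.S27.CH.Coord
import Fermat.Agent.S27.CH.Build

/-!
# S27, block CH : existence of charts.   INTERFACE FILE (sub-owner: helper7)

STRONGER THAN THE BLUEPRINT: `exists_chart'` : EVERY place is the centre of a chart WITHOUT exceptional parameters.
Route: `t` with a zero at `R` and only simple zeros (`Coord.exists_coord`, Riemann-Roch), `u` integral over `ℂ[t]` separating the `n = [F:ℂ(t)]` zeros of `t` (`Coord.exists_sep`, CRT); then `f(0,Y)` has `n` distinct roots,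
so `(t,u)` is a plane model all of whose points over `t = 0` are smooth (`Build.exists_model_of`); chart of a model (`Chart.lean`; `Model.lean` = points ↔ places, `Dens.lean` = `ω = G dx / f_Y`, `Biv.lean` = polynomials + IFT).
-/

set_option autoImplicit false

noncomputable section

namespace Fermat.Agent.S27

open AlgebraicCurve Fermat.Agent.S37 IntermediateField

variable {F : Type*} [Field F] [Algebra ℂ F]

/-- every place is the centre of a chart without exceptional parameters -/
theorem exists_chart' (h : IsFF ℂ F) (R : Place ℂ F) : ∃ χ : Chart F, χ.pl 0 = R ∧ χ.exc = ∅ := by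
  obtain ⟨t, hR, hsimple⟩ := exists_coord h R
  have ht : Transcendental ℂ t := by
    apply S24.Diff.transcendental_of_notMem_range
    rintro ⟨c, rfl⟩
    have h1 : Reg R (algebraMap ℂ F c) := R.algebraMap_mem' c
    have h2 : Van R (algebraMap ℂ F c) := Or.inr (by rw [hR]; exact one_pos)
    have h3 : c = 0 := by
      rw [← val_algebraMap h R c]
      exact (val_eq_zero_iff h h1).mpr h2
    rw [h3, map_zero, Place.ord_zero] at hR
    exact zero_ne_one hR
  obtain ⟨x, -, hfx⟩ := id h
  have hfin : FiniteDimensional ℂ⟮t⟯ F := S24.Diff.finiteDimensional_adjoin_of_transcendental x hfx t ht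
  have hZfin := S24.finite_zeroPlaces t ht hfin
  have hcard : (Module.finrank ℂ⟮t⟯ F : ℤ) = hZfin.toFinset.card := by
    rw [← S24.sum_ord_zeroPlaces t ht hfin, finsum_mem_eq_finite_toFinset_sum _ hZfin,
      Finset.sum_congr rfl fun P hP => hsimple P (hZfin.mem_toFinset.mp hP)]
    simp
  obtain ⟨u, hu, hinj⟩ := exists_sep t ht hfin hZfin.toFinset fun P hP =>
    reg_iff.mpr (hZfin.mem_toFinset.mp hP).le
  obtain ⟨M, hMx, hM0⟩ := exists_model_of t u ht hfin hu hZfin.toFinset
    (fun P hP => hZfin.mem_toFinset.mp hP) (by exact_mod_cast hcard.le) hinj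
  exact M.exists_chart R (by rw [hMx, hR]; exact one_pos) hM0

/-- every place is the centre of a chart -/
theorem exists_chart (h : IsFF ℂ F) (R : Place ℂ F) : ∃ χ : Chart F, χ.pl 0 = R ∧ χ.exc ⊆ {0} := by
  obtain ⟨χ, h1, h2⟩ := exists_chart' h R
  exact ⟨χ, h1, by rw [h2]; exact Set.empty_subset _⟩

/-- all but finitely many places are centres of charts without exceptional parameters -/
theorem exists_good_chart (h : IsFF ℂ F) : ∃ T : Set (Place ℂ F), T.Finite ∧
    ∀ R ∉ T, ∃ χ : Chart F, χ.pl 0 = R ∧ χ.exc = ∅ :=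
  ⟨∅, Set.finite_empty, fun R _ => exists_chart' h R⟩

end Fermat.Agent.S27
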