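import Mathlib

/-!
# S27, block CH, file 1 : bivariate polynomials over `ℂ`  (MATHLIB ONLY, no context needed)

`N : ℂ[X][X]` is a polynomial in `Y` (outer variable) with coefficients in `ℂ[X]`; `Polynomial.evalEval c y N = N(c,y)`
(`= eval c (eval (C y) N)`), `derivative N = ∂N/∂Y`.

* [S27/CH-B1] `biv_decomp` (~60 lines).  `N = (X - c) N₁ + (Y - y) N₂ + N(c,y)` with `N₂(c,y) = N_Y(c,y)`.
  Proof: divide `N` by the monic `Y - C (C y)`: `N = (Y - C (C y)) * N₂ + C (eval (C y) N)`
  (`Polynomial.modByMonic_add_div`, `modByMonic_X_sub_C_eq_C_eval`), then `r := eval (C y) N : ℂ[X]` by `X - C c`: `r = (X - C c) * r₁ + C (eval c r)`; `N₁ = C r₁`.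
  Differentiate the first identity and evaluate at `(c,y)`.
* [S27/CH-B2] `analyticAt_evalEval` (~30 lines): `Polynomial.induction_on'` twice (or write `evalEval` as a finite sum: `eval_eq_sum_range`), `AnalyticAt.add/mul/pow`, `analyticAt_const`.
* [S27/CH-B3] `exists_branch` (~100 lines): the implicit function theorem.  Mathlib: `ContDiffAt.implicitFunction` (file `Mathlib/Analysis/Calculus/ImplicitContDiff.lean`) with
  `n = ω`, `f := fun p : ℂ × ℂ => evalEval p.1 p.2 f`, `u = (c₀,y₀)`: `implicitFunction_apply_self`, `eventually_apply_implicitFunction`, `contDiffAt_implicitFunction`;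
  `ContDiffAt ℂ ω ↔ AnalyticAt` (`contDiffAt_omega_iff_analyticAt`), `AnalyticAt.eventually_analyticAt`; the partial derivative in `y` is multiplication by `f_Y(c₀,y₀) ≠ 0`
  (`(fun y => evalEval c₀ y f) = fun y => eval y (f.map (evalRingHom c₀))`, `Polynomial.hasDerivAt`; `fderiv ∘ inr` is computed by the chain rule), so it is invertible.
  Finally intersect the two `∀ᶠ` and take a ball (`Metric.eventually_nhds_iff_ball`).
* [S27/CH-B4] `lagQ_mul`, `lagQ_eval_self`, `evalEval_lagG` (~120 lines).  With `f = ∑ a_i(X) Y^i`: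
  `lagQ f c y = ∑_i ∑_{j<i} a_i(c) y^(i-1-j) U^j = (f(c,U) - f(c,y))/(U - y)` (`geom_sum₂_mul`, `Polynomial.as_sum_range_C_mul_X_pow`), its value at `U = y` is `f_Y(c,y)` (differentiate `lagQ_mul`,
  or `geom_sum₂_self`).
* [S27/CH-B5] `simple_of_card` (~50 lines): a polynomial of degree `≤ n` (nonzero) with `n` distinct roots has only simple roots, and every root is one of them
  (`Polynomial.card_roots'`, `Multiset.toFinset`, `Polynomial.one_lt_rootMultiplicity_iff_isRoot`, `count_roots`: `∑ multiplicities ≤ n`).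
-/

set_option autoImplicit false

noncomputable section

namespace Fermat.Agent.S27

open Polynomial Topology
open scoped ContDiff

theorem biv_decomp (N : ℂ[X][X]) (c y : ℂ) : ∃ N₁ N₂ : ℂ[X][X],
    N = C (X - C c) * N₁ + (X - C (C y)) * N₂ + C (C (evalEval c y N)) ∧
      evalEval c y N₂ = evalEval c y (derivative N) := by
  have h1 : N = (X - C (C y)) * (N /ₘ (X - C (C y))) + C (eval (C y) N) := by
    have := modByMonic_add_div N (X - C (C y))
    rw [modByMonic_X_sub_C_eq_C_eval] at this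
    rw [add_comm]; exact this.symm
  have h2 : eval (C y) N = (X - C c) * (eval (C y) N /ₘ (X - C c)) + C (evalEval c y N) := by
    have := modByMonic_add_div (eval (C y) N) (X - C c)
    rw [modByMonic_X_sub_C_eq_C_eval] at this
    rw [add_comm]; exact this.symm
  refine ⟨C (eval (C y) N /ₘ (X - C c)), N /ₘ (X - C (C y)), ?_, ?_⟩
  · conv_lhs => rw [h1, h2]
    simp only [C_add, C_mul]
    ring
  · conv_rhs => rw [h1]
    simp [evalEval, derivative_mul]


theorem b2_analyticAt {E : Type*} [NormedAddCommGroup E] [NormedSpace ℂ E] (N : ℂ[X][X])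
    {g h : E → ℂ} {s : E} (hg : AnalyticAt ℂ g s)
    (hh : AnalyticAt ℂ h s) : AnalyticAt ℂ (fun σ => evalEval (g σ) (h σ) N) s := by
  have h1 : ∀ p : ℂ[X], AnalyticAt ℂ (fun σ => eval (g σ) p) s := by
    intro p
    induction p using Polynomial.induction_on' with
    | add p q hp hq =>
      simp only [eval_add]
      exact hp.add hq
    | monomial n a =>
      simp only [eval_monomial]
      exact analyticAt_const.mul (hg.pow n)
  induction N using Polynomial.induction_on' with
  | add p q hp hq =>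
    simp only [evalEval, eval_add] at hp hq ⊢
    exact hp.add hq
  | monomial n a =>
    have : (fun σ => evalEval (g σ) (h σ) (monomial n a)) = fun σ => eval (g σ) a * h σ ^ n := by
      funext σ
      simp [evalEval, eval_monomial]
    rw [this]
    exact (h1 a).mul (hh.pow n)

/-- [S27/CH-B2] -/
theorem analyticAt_evalEval (N : ℂ[X][X]) {g h : ℂ → ℂ} {s : ℂ} (hg : AnalyticAt ℂ g s)
    (hh : AnalyticAt ℂ h s) : AnalyticAt ℂ (fun σ => evalEval (g σ) (h σ) N) s :=
  b2_analyticAt N hg hh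

theorem exists_branch (f : ℂ[X][X]) (c₀ y₀ : ℂ) (h0 : evalEval c₀ y₀ f = 0)
    (h1 : evalEval c₀ y₀ (derivative f) ≠ 0) :
    ∃ r : ℝ, 0 < r ∧ ∃ Y : ℂ → ℂ, Y c₀ = y₀ ∧ (∀ s ∈ Metric.ball c₀ r, AnalyticAt ℂ Y s) ∧
      ∀ s ∈ Metric.ball c₀ r, evalEval s (Y s) f = 0 := by
  let Φ : ℂ × ℂ → ℂ := fun p => evalEval p.1 p.2 f
  have hΦan : AnalyticAt ℂ Φ (c₀, y₀) := b2_analyticAt f analyticAt_fst analyticAt_snd
  have cdf : ContDiffAt ℂ ω Φ (c₀, y₀) := hΦan.contDiffAt
  have hω : (ω : ℕ∞ω) ≠ 0 := by simp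
  have hd1 : HasFDerivAt (fun y : ℂ => Φ (c₀, y))
      ((fderiv ℂ Φ (c₀, y₀)).comp (ContinuousLinearMap.inr ℂ ℂ ℂ)) y₀ :=
    HasFDerivAt.comp y₀ (f := fun y : ℂ => (c₀, y)) hΦan.differentiableAt.hasFDerivAt
      (hasFDerivAt_prodMk_right c₀ y₀)
  have hd2 : HasDerivAt (fun y : ℂ => Φ (c₀, y)) (evalEval c₀ y₀ (derivative f)) y₀ := by
    have h := (f.map (evalRingHom c₀)).hasDerivAt y₀
    rw [derivative_map, map_evalRingHom_eval] at h
    have he : (fun y : ℂ => Φ (c₀, y)) = fun y => eval y (f.map (evalRingHom c₀)) := by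
      funext y
      simp only [Φ, map_evalRingHom_eval]
    rw [he]
    exact h
  have hinv : ((fderiv ℂ Φ (c₀, y₀)).comp (ContinuousLinearMap.inr ℂ ℂ ℂ)).IsInvertible := by
    refine ⟨ContinuousLinearEquiv.unitsEquivAut ℂ (Units.mk0 _ h1), ?_⟩
    have := hd1.unique hd2.hasFDerivAt
    rw [this]
    ext
    simp
  refine ?_
  have e1 := cdf.eventually_apply_implicitFunction hω hinv
  have e2 := (cdf.contDiffAt_implicitFunction hω hinv).analyticAt.eventually_analyticAt
  obtain ⟨r, hr, hball⟩ := Metric.eventually_nhds_iff_ball.mp (e1.and e2)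
  refine ⟨r, hr, cdf.implicitFunction hω hinv, cdf.implicitFunction_apply_self hω hinv,
    fun s hs => (hball s hs).2, fun s hs => ?_⟩
  have := (hball s hs).1
  simp only [Φ] at this
  rw [this, h0]


def lagQ (f : ℂ[X][X]) (c y : ℂ) : ℂ[X] :=
  ∑ i ∈ Finset.range (f.natDegree + 1), ∑ j ∈ Finset.range i,
    C ((f.coeff i).eval c * y ^ (i - 1 - j)) * X ^ j

def lagG (f : ℂ[X][X]) (r : ℕ → ℂ[X]) : ℂ[X][X] :=
  ∑ i ∈ Finset.range (f.natDegree + 1), ∑ j ∈ Finset.range i,
    C (f.coeff i * r j) * X ^ (i - 1 - j)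

theorem b4_map (f : ℂ[X][X]) (c : ℂ) : f.map (evalRingHom c) =
    ∑ i ∈ Finset.range (f.natDegree + 1), C ((f.coeff i).eval c) * X ^ i := by
  conv_lhs => rw [f.as_sum_range_C_mul_X_pow]
  simp [Polynomial.map_sum]

theorem lagQ_mul (f : ℂ[X][X]) (c y : ℂ) :
    lagQ f c y * (X - C y) = f.map (evalRingHom c) - C (evalEval c y f) := by
  rw [← map_evalRingHom_eval, b4_map, eval_finsetSum, map_sum, ← Finset.sum_sub_distrib, lagQ,
    Finset.sum_mul]
  refine Finset.sum_congr rfl fun i _ => ?_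
  have h := geom_sum₂_mul (X : ℂ[X]) (C y) i
  simp only [eval_mul, eval_C, eval_pow, eval_X, C_mul, C_pow]
  rw [← mul_sub, ← h, ← mul_assoc, Finset.mul_sum]
  congr 1
  refine Finset.sum_congr rfl fun j _ => ?_
  ring

theorem lagQ_eval_self (f : ℂ[X][X]) (c y : ℂ) :
    (lagQ f c y).eval y = evalEval c y (derivative f) := by
  have h := congrArg (fun p => eval y (derivative p)) (lagQ_mul f c y)
  simp only [derivative_mul, derivative_sub, derivative_X, derivative_C, sub_zero, eval_add,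
    eval_mul, eval_sub, eval_X, eval_C, sub_self, mul_zero, zero_add, mul_one] at h
  rw [h, derivative_map, map_evalRingHom_eval]

theorem evalEval_lagG (f : ℂ[X][X]) (r : ℕ → ℂ[X]) (c y : ℂ) :
    evalEval c y (lagG f r) = ∑ i ∈ Finset.range (f.natDegree + 1), ∑ j ∈ Finset.range i,
      ((f.coeff i).eval c * y ^ (i - 1 - j)) * (r j).eval c := by
  simp only [lagG, evalEval, eval_finsetSum, eval_mul, eval_C, eval_pow, eval_X]
  refine Finset.sum_congr rfl fun i _ => Finset.sum_congr rfl fun j _ => ?_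
  ring

theorem simple_of_card (p : ℂ[X]) (hp : p ≠ 0) (s : Finset ℂ) (hs : ∀ a ∈ s, p.eval a = 0)
    (hcard : p.natDegree ≤ s.card) :
    p.natDegree = s.card ∧ ∀ y, p.eval y = 0 → y ∈ s ∧ (derivative p).eval y ≠ 0 := by
  have hsub : s.val ≤ p.roots := by
    rw [Multiset.le_iff_subset s.nodup]
    intro a ha
    exact (mem_roots hp).mpr (hs a ha)
  have hc1 : s.card ≤ Multiset.card p.roots := Multiset.card_le_card hsub
  have hc2 := p.card_roots'
  have heq : s.val = p.roots := Multiset.eq_of_le_of_card_le hsub (by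
    show Multiset.card p.roots ≤ s.card
    omega)
  refine ⟨by omega, fun y hy => ?_⟩
  have hy' : y ∈ p.roots := (mem_roots hp).mpr hy
  refine ⟨by rw [← heq] at hy'; exact hy', fun hd => ?_⟩
  have h1 : 1 < p.rootMultiplicity y := (one_lt_rootMultiplicity_iff_isRoot hp).mpr ⟨hy, hd⟩
  rw [← count_roots, ← heq] at h1
  have h2 := Multiset.nodup_iff_count_le_one.mp s.nodup y
  omega

end Fermat.Agent.S27
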