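import Fermat.Agent.S27.CH.Model
import Fermat.Agent.S27.Val

/-!
# S27, block CH, file 3 : the classical formula `ω = G(x,u) dx / f_Y(x,u)` for a Weil differential `ω : WD 0`   (CH6)

`M : Model F`, `ω : WD 0`.  `M.polesX` = the poles of `x`, `M.fib c` = the zeros of `x - c` (finite sets of places).  Tools: `loc_add`, `loc_smul`, `loc_eq_zero`, `sum_loc` (`AR/Main.lean`).

* [S27/CH-D0] `mem_polesX`, `mem_fib`, `loc_sum`, `loc_zero'` (~60 lines; `S24.mem_iff_ord_nonneg`, `Place.ord_inv`, `van_sub_val`, `val_eq_of_van`, `S24.Diff.not_ord_sub_pos_of_ord_neg`).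
* [S27/CH-D1] `exists_poly_infty` (~150 lines).  For `w : F` choose `m : ℕ` with `- R.ord w ≤ m + 2` for all `R ∈ polesX`.  Identity (`x ≠ 0`, `x - c ≠ 0`):
  `(x-c)⁻¹ = ∑_{k ≤ m} c^k x^(-k-1) + c^(m+1) x^(-m-1) (x-c)⁻¹`  (`(x - c) ∑_{k ≤ m} c^k x^(m-k) = x^(m+1) - c^(m+1)`: `geom_sum₂_mul` / `Commute.mul_geom_sum₂`).
  At `R ∈ polesX`: `ord (x - c) = ord x ≤ -1` (ultrametric: `x - c` is not regular and `ord (x-c) = ord x`: write `x - c = x (1 - c x⁻¹)`, `1 - c x⁻¹` is a unit at `R` since `val = 1`), so the last term times `w` has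
  `ord ≥ ord w + (m+2) ≥ 0`: `loc_eq_zero`.  Hence `∑_R loc ω R (w (x-c)⁻¹) = ∑_{k ≤ m} c^k ∑_R loc ω R (w x^(-k-1))`:  `r := ∑_{k ≤ m} C (∑_R loc ω R (w * x⁻¹^(k+1))) * X^k`.
* [S27/CH-D2] `sum_fib` (~80 lines): `sum_loc ω (bev N * (x-c)⁻¹) (fib c ∪ polesX)` (disjoint union): outside, `x` is regular, `bev N` is regular (`reg_bev`, `M.int`), `x - c` is regular and does not vanish, so it has `ord = 0`.
* [S27/CH-D3] `loc_fib` (~80 lines): `bev N * (x-c)⁻¹ = (bev N - N(c,y)) (x-c)⁻¹ + N(c,y) (x-c)⁻¹`; the first term is regular at `P` (`Van P (bev N - N(c,y))` by `van_sub_val` + `Over.val`; `M.ord_sub`): `loc_eq_zero`; `loc_add`, `loc_smul`.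
* [S27/CH-D4] `exists_dens` (~200 lines).  `r j` from `exists_poly_infty ω (u^j)`, `G := - lagG f r`.  Fix `P` over `(c,y)`, `c ∉ bad`, `N := (lagQ f c y).map C`; `bev N = aeval u (lagQ f c y) = ∑_i ∑_{j<i} (a_i(c) y^(i-1-j)) u^j`,
  `evalEval c y' N = (lagQ f c y).eval y'`.  In `sum_fib`: a `P' ∈ fib c` lies over `(c,y')`, `y' = val P' u`, a smooth point since `c ∉ bad`; `loc_fib`; if `P' ≠ P` then `y' ≠ y` (`place_unique`) and
  `(lagQ f c y).eval y' * (y' - y) = f(c,y') - f(c,y) = 0` (`lagQ_mul`, `Polynomial.map_evalRingHom_eval`); for `P' = P` use `lagQ_eval_self`: the first sum is `f_Y(c,y) * loc ω P (x-c)⁻¹` (`Finset.sum_eq_single`).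
  The second sum is `∑_i ∑_j a_i(c) y^(i-1-j) (r j)(c) = evalEval c y (lagG f r)` (`loc_sum`, `loc_smul`, `Finset.sum_comm`, `evalEval_lagG`).
-/

set_option autoImplicit false

noncomputable section

namespace Fermat.Agent.S27

open AlgebraicCurve Fermat.Agent.S37 Polynomial IntermediateField

variable {F : Type*} [Field F] [Algebra ℂ F]

/-- [S27/CH-D0] -/
theorem loc_sum {D : Divisor ℂ F} (ω : WD D) (P : Place ℂ F) {ι : Type*} (s : Finset ι)
    (g : ι → F) : loc ω P (∑ i ∈ s, g i) = ∑ i ∈ s, loc ω P (g i) := by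
  classical
  induction s using Finset.induction_on with
  | empty => simpa using loc_eq_zero ω (P := P) (y := 0) (Or.inl rfl)
  | insert a s ha ih => rw [Finset.sum_insert ha, Finset.sum_insert ha, loc_add, ih]

namespace Model

variable (M : Model F)

/-- the poles of `x` -/
def polesX : Finset (Place ℂ F) :=
  (S24.finite_zeroPlaces M.x⁻¹ (S24.transcendental_inv M.x M.tr)
    (S24.finiteDimensional_adjoin_inv M.x M.fin)).toFinset

/-- the zeros of `x - c` -/
def fib (c : ℂ) : Finset (Place ℂ F) :=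
  (S24.finite_zeroPlaces (M.x - algebraMap ℂ F c) (S24.Diff.transcendental_sub_algebraMap M.tr c)
    (S24.Diff.finiteDimensional_congr (S24.Diff.adjoin_sub_algebraMap M.x c).symm M.fin)).toFinset

/-- [S27/CH-D0] -/
theorem mem_polesX {P : Place ℂ F} : P ∈ M.polesX ↔ ¬ Reg P M.x := by
  rw [polesX, Set.Finite.mem_toFinset, Set.mem_ofPred_eq, Place.ord_inv, reg_iff]
  omega

/-- [S27/CH-D0] -/
theorem mem_fib {P : Place ℂ F} {c : ℂ} : P ∈ M.fib c ↔ M.Over P c (val P M.u) := by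
  rw [fib, Set.Finite.mem_toFinset, Set.mem_ofPred_eq]
  constructor
  · intro h
    have h1 : Reg P (M.x - algebraMap ℂ F c) := reg_iff.mpr h.le
    have h2 : Reg P M.x := by
      have := h1.add (reg_algebraMap P c)
      rwa [sub_add_cancel] at this
    exact ⟨h2, val_eq_of_van M.isFF (Or.inr h), rfl⟩
  · intro h
    exact h.ord_sub_pos

/-- [S27/CH-D1] the contribution of the poles of `x` is a polynomial in `c` -/
theorem exists_poly_infty (ω : WD (0 : Divisor ℂ F)) (w : F) : ∃ r : ℂ[X], ∀ c : ℂ,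
    ∑ R ∈ M.polesX, loc ω R (w * (M.x - algebraMap ℂ F c)⁻¹) = r.eval c := by
  have hx0 : M.x ≠ 0 := by
    have := M.sub_ne_zero' 0
    rwa [map_zero, sub_zero] at this
  -- the geometric expansion
  have hgeo : ∀ (a : F), M.x - a ≠ 0 → ∀ m : ℕ, (M.x - a)⁻¹ =
      ∑ k ∈ Finset.range m, a ^ k * M.x⁻¹ ^ (k + 1) + a ^ m * (M.x⁻¹ ^ m * (M.x - a)⁻¹) := by
    intro a ha m
    induction m with
    | zero => simp
    | succ m ih =>
      have key : (M.x - a)⁻¹ = M.x⁻¹ + a * (M.x⁻¹ * (M.x - a)⁻¹) := by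
        field_simp
        ring
      rw [Finset.sum_range_succ, add_assoc]
      conv_lhs => rw [ih]
      congr 1
      conv_lhs => rw [key]
      ring
  set m : ℕ := M.polesX.sup fun R => (- R.ord w).toNat with hm
  have hmle : ∀ R ∈ M.polesX, - R.ord w ≤ m := by
    intro R hR
    have h1 : (- R.ord w).toNat ≤ m := Finset.le_sup (f := fun R => (- R.ord w).toNat) hR
    omega
  refine ⟨∑ k ∈ Finset.range m,
    C (∑ R ∈ M.polesX, loc ω R (w * M.x⁻¹ ^ (k + 1))) * X ^ k, fun c => ?_⟩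
  have hxc0 := M.sub_ne_zero' c
  have hterm : ∀ R ∈ M.polesX, loc ω R (w * (M.x - algebraMap ℂ F c)⁻¹) =
      ∑ k ∈ Finset.range m, c ^ k * loc ω R (w * M.x⁻¹ ^ (k + 1)) := by
    intro R hR
    have hRx : R.ord M.x < 0 := by
      have := (M.mem_polesX).mp hR
      rw [reg_iff] at this
      omega
    have hRxc : R.ord (M.x - algebraMap ℂ F c) < 0 := by
      by_contra hge
      have h1 : Reg R (M.x - algebraMap ℂ F c) := reg_iff.mpr (by omega)
      have h2 := h1.add (reg_algebraMap R c)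
      rw [sub_add_cancel] at h2
      exact (M.mem_polesX).mp hR h2
    have hlast : loc ω R (w * (M.x⁻¹ ^ m * (M.x - algebraMap ℂ F c)⁻¹)) = 0 := by
      apply loc_eq_zero
      by_cases hw : w = 0
      · left; rw [hw, zero_mul]
      right
      rw [R.ord_mul hw (mul_ne_zero (pow_ne_zero _ (inv_ne_zero hx0)) (inv_ne_zero hxc0)),
        R.ord_mul (pow_ne_zero _ (inv_ne_zero hx0)) (inv_ne_zero hxc0), RiemannAux.ord_pow',
        Place.ord_inv, Place.ord_inv]
      have h1 := hmle R hR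
      have h2 : (m : ℤ) ≤ (m : ℤ) * - R.ord M.x := by nlinarith
      simp only [Finsupp.coe_zero, Pi.zero_apply, neg_zero]
      omega
    have hexp : w * (M.x - algebraMap ℂ F c)⁻¹ =
        ∑ k ∈ Finset.range m, algebraMap ℂ F (c ^ k) * (w * M.x⁻¹ ^ (k + 1)) +
          algebraMap ℂ F (c ^ m) * (w * (M.x⁻¹ ^ m * (M.x - algebraMap ℂ F c)⁻¹)) := by
      conv_lhs => rw [hgeo _ hxc0 m]
      rw [mul_add, Finset.mul_sum]
      simp only [map_pow]
      congr 1
      · exact Finset.sum_congr rfl fun k _ => by ring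
      · ring
    rw [hexp, loc_add, loc_sum, loc_smul, hlast, mul_zero, add_zero]
    exact Finset.sum_congr rfl fun k _ => loc_smul ω R _ _
  rw [Finset.sum_congr rfl hterm, Finset.sum_comm, eval_finsetSum]
  refine Finset.sum_congr rfl fun k _ => ?_
  rw [eval_mul, eval_C, eval_pow, eval_X, ← Finset.mul_sum, mul_comm]

/-- [S27/CH-D2] the residue theorem for `N(x,u)/(x-c)` -/
theorem sum_fib (ω : WD (0 : Divisor ℂ F)) (N : ℂ[X][X]) (c : ℂ) :
    ∑ P ∈ M.fib c, loc ω P (bev M.x M.u N * (M.x - algebraMap ℂ F c)⁻¹) +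
      ∑ R ∈ M.polesX, loc ω R (bev M.x M.u N * (M.x - algebraMap ℂ F c)⁻¹) = 0 := by
  classical
  have hdisj : Disjoint (M.fib c) M.polesX := by
    rw [Finset.disjoint_left]
    intro P h1 h2
    exact (M.mem_polesX).mp h2 ((M.mem_fib).mp h1).1
  rw [← Finset.sum_union hdisj]
  apply sum_loc
  intro P hP
  rw [Finset.mem_union, not_or] at hP
  have hreg : Reg P M.x := by
    by_contra h
    exact hP.2 ((M.mem_polesX).mpr h)
  have hxc0 := M.sub_ne_zero' c
  have h1 : 0 ≤ P.ord (M.x - algebraMap ℂ F c) := reg_iff.mp (hreg.sub (reg_algebraMap P c))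
  have h2 : ¬ 0 < P.ord (M.x - algebraMap ℂ F c) := by
    intro h
    apply hP.1
    rw [fib, Set.Finite.mem_toFinset]
    exact h
  by_cases hN : bev M.x M.u N = 0
  · left; rw [hN, zero_mul]
  right
  rw [P.ord_mul hN (inv_ne_zero hxc0), Place.ord_inv]
  have h3 : 0 ≤ P.ord (bev M.x M.u N) := reg_iff.mp (reg_bev P hreg (M.int P hreg) N)
  simp only [Finsupp.coe_zero, Pi.zero_apply, neg_zero]
  omega

/-- [S27/CH-D3] -/
theorem loc_fib (ω : WD (0 : Divisor ℂ F)) (N : ℂ[X][X]) {P : Place ℂ F} {c y : ℂ}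
    (h : M.Over P c y) (hs : evalEval c y (derivative M.f) ≠ 0) :
    loc ω P (bev M.x M.u N * (M.x - algebraMap ℂ F c)⁻¹) =
      evalEval c y N * loc ω P (M.x - algebraMap ℂ F c)⁻¹ := by
  have hxc0 := M.sub_ne_zero' c
  have hsplit : bev M.x M.u N * (M.x - algebraMap ℂ F c)⁻¹ =
      (bev M.x M.u N - algebraMap ℂ F (evalEval c y N)) * (M.x - algebraMap ℂ F c)⁻¹ +
        algebraMap ℂ F (evalEval c y N) * (M.x - algebraMap ℂ F c)⁻¹ := by ring
  have hvan : Van P (bev M.x M.u N - algebraMap ℂ F (evalEval c y N)) := by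
    have := van_sub_val M.isFF (h.reg N)
    rwa [h.val] at this
  have hz : loc ω P ((bev M.x M.u N - algebraMap ℂ F (evalEval c y N)) *
      (M.x - algebraMap ℂ F c)⁻¹) = 0 := by
    apply loc_eq_zero
    rcases hvan with h0 | hpos
    · left; rw [h0, zero_mul]
    · right
      have h0 : bev M.x M.u N - algebraMap ℂ F (evalEval c y N) ≠ 0 := by
        intro h0
        rw [h0, Place.ord_zero] at hpos
        exact lt_irrefl _ hpos
      rw [P.ord_mul h0 (inv_ne_zero hxc0), Place.ord_inv, M.ord_sub h hs]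
      simp only [Finsupp.coe_zero, Pi.zero_apply, neg_zero]
      omega
  rw [hsplit, loc_add, hz, zero_add, loc_smul]

/-- [S27/CH-D4] (CH6) -/
theorem exists_dens (ω : WD (0 : Divisor ℂ F)) : ∃ G : ℂ[X][X], ∀ (P : Place ℂ F) (c y : ℂ),
    M.Over P c y → c ∉ M.bad →
      loc ω P (M.x - algebraMap ℂ F c)⁻¹ * evalEval c y (derivative M.f) = evalEval c y G := by
  choose r hr using fun j : ℕ => M.exists_poly_infty ω (M.u ^ j)
  refine ⟨- lagG M.f r, fun P c y hP hc => ?_⟩
  have hsm : ∀ y', evalEval c y' M.f = 0 → evalEval c y' (derivative M.f) ≠ 0 :=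
    fun y' h1 h2 => hc ⟨y', h1, h2⟩
  have hNev : ∀ y', evalEval c y' ((lagQ M.f c y).map C) = (lagQ M.f c y).eval y' := by
    intro y'
    rw [evalEval, eval_map, eval₂_at_apply, eval_C]
  have hbevN : bev M.x M.u ((lagQ M.f c y).map C) =
      ∑ i ∈ Finset.range (M.f.natDegree + 1), ∑ j ∈ Finset.range i,
        algebraMap ℂ F ((M.f.coeff i).eval c * y ^ (i - 1 - j)) * M.u ^ j := by
    simp only [lagQ, Polynomial.map_sum, map_sum, Polynomial.map_mul, Polynomial.map_pow, map_C,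
      map_X, map_mul, map_pow, bev_CC, bev_X]
  -- the first sum
  have hA : ∑ P' ∈ M.fib c, loc ω P' (bev M.x M.u ((lagQ M.f c y).map C) *
      (M.x - algebraMap ℂ F c)⁻¹) =
      evalEval c y (derivative M.f) * loc ω P (M.x - algebraMap ℂ F c)⁻¹ := by
    rw [Finset.sum_eq_single P]
    · rw [M.loc_fib ω _ hP (hsm y hP.eval_f), hNev, lagQ_eval_self]
    · intro P' hP' hne
      have hO := (M.mem_fib).mp hP'
      rw [M.loc_fib ω _ hO (hsm _ hO.eval_f), hNev]
      have hy : val P' M.u ≠ y := by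
        intro hy
        rw [hy] at hO
        exact hne (M.place_unique hO hP (hsm y hP.eval_f))
      have h1 := congrArg (eval (val P' M.u)) (lagQ_mul M.f c y)
      rw [eval_mul, eval_sub, eval_sub, eval_X, eval_C, eval_C, map_evalRingHom_eval, hO.eval_f,
        hP.eval_f, sub_zero] at h1
      rw [(mul_eq_zero.mp h1).resolve_right (sub_ne_zero.mpr hy), zero_mul]
    · intro hnot
      exact absurd ((M.mem_fib).mpr ⟨hP.1, hP.2.1, rfl⟩) hnot
  -- the second sum
  have hB : ∑ R ∈ M.polesX, loc ω R (bev M.x M.u ((lagQ M.f c y).map C) *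
      (M.x - algebraMap ℂ F c)⁻¹) = evalEval c y (lagG M.f r) := by
    have h1 : ∀ R ∈ M.polesX, loc ω R (bev M.x M.u ((lagQ M.f c y).map C) *
        (M.x - algebraMap ℂ F c)⁻¹) =
        ∑ i ∈ Finset.range (M.f.natDegree + 1), ∑ j ∈ Finset.range i,
          ((M.f.coeff i).eval c * y ^ (i - 1 - j)) *
            loc ω R (M.u ^ j * (M.x - algebraMap ℂ F c)⁻¹) := by
      intro R _
      rw [hbevN, Finset.sum_mul, loc_sum]
      refine Finset.sum_congr rfl fun i _ => ?_
      rw [Finset.sum_mul, loc_sum]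
      refine Finset.sum_congr rfl fun j _ => ?_
      rw [mul_assoc, loc_smul]
    rw [Finset.sum_congr rfl h1, Finset.sum_comm, evalEval_lagG]
    refine Finset.sum_congr rfl fun i _ => ?_
    rw [Finset.sum_comm]
    refine Finset.sum_congr rfl fun j _ => ?_
    rw [← Finset.mul_sum, hr j c]
  have hsum := M.sum_fib ω ((lagQ M.f c y).map C) c
  rw [hA, hB] at hsum
  have hneg : evalEval c y (- lagG M.f r) = - evalEval c y (lagG M.f r) := by
    simp [evalEval]
  rw [hneg]
  linear_combination hsum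

end Model

end Fermat.Agent.S27
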