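import Fermat.Agent.S27.AR.Main
import Fermat.Agent.S27.CH.Biv
import Fermat.Agent.S24.Embed

/-!
# S27, block CH, file 2 : plane models `(x, u, f)` of a function field `F/ℂ`; points `↔` places

`bev x u N = N(x,u) ∈ F` for `N : ℂ[X][X]`.   A `Model F` is `(x, u, f)` with `x` transcendental, `F/ℂ(x)` finite, `f` monic in `Y`, `ker (bev x u) = (f)`, `F = Frac ℂ[x,u]`,
`u` regular wherever `x` is.   `M.bad = {c | f(c,·) has a multiple root}`.   Use the `val`-calculus of `AR/Main.lean` (`reg_iff`, `van_sub_val`, `val_eq_of_van`, `val_add`, `val_mul`,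
`val_algebraMap`, `val_eq_zero_iff`), `Place.ord_mul`, `S24.mem_iff_ord_nonneg`.

* [S27/CH-M1] `reg_bev`, `val_bev` (~80 lines): `Polynomial.induction_on'` twice (first `aeval x p` for `p : ℂ[X]`).  `Reg P` is closed under `+`, `*` (it is membership in a subring).
* [S27/CH-M2] `Model.exists_place` (CH1, ~100 lines).  `𝔭 := RingHom.ker (evalEvalRingHom c y)` is prime; `N ∉ 𝔭 → bev N ≠ 0` (else `f ∣ N` by `M.dvd`, so `N(c,y) = 0`).  So
  `IsLocalization.lift` gives `φ : Localization.AtPrime 𝔭 →+* F`; `IsLocalRing.exists_factor_valuationRing (R := Localization.AtPrime (RingHom.ker ε)) φ` gives a valuation subring `O ⊇ range φ` with a LOCAL hom (copy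
  `S14/BridgePlaces.exists_over`).  `x - c = bev (C (X - C c))` and `u - y` are non units of `O`; `O ≠ ⊤` (`x - c ≠ 0` is a non unit); `ℂ ⊆ O`, `x ∈ O`;
  `S24.exists_place_of_valuationSubring M.x M.tr M.fin O ..` gives the place `P`.  A non unit `z ≠ 0` of `O_P` has `0 < P.ord z` (`z⁻¹ ∉ O_P`, `ord_inv`, `mem_iff_ord_nonneg`); `val_eq_of_van`.
* [S27/CH-M3a] `Model.mul_eq` (CH2a, ~60 lines): `P` over `(c,y)`, `N(c,y) = 0`: with `biv_decomp` for `N` and for `f` (`f = (X-c) f₁ + (Y-y) f₂`, `e := f₂`, `e(c,y) = f_Y(c,y)`),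
  `bev f = 0` gives `(u-y) bev f₂ = -(x-c) bev f₁`, so `bev N * bev f₂ = (x-c) * bev (N₁ f₂ - f₁ N₂)`.  NOTE `e` does not depend on `N`.
* [S27/CH-M3b] `Model.exists_quot` (CH2b, ~120 lines): `z` regular at the smooth point `P`; `M.frac`: `z * bev b = bev a`, `bev b ≠ 0`.  Strong induction on `(P.ord (bev b)).toNat`: if `b(c,y) ≠ 0` done.
  Otherwise `Van P (bev b)`, so `Van P (bev a)`, `a(c,y) = 0`; `mul_eq`: `bev a * bev e = (x-c) bev a'`, `bev b * bev e = (x-c) bev b'`; so `z * bev b' = bev a'`, `bev b' ≠ 0`,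
  `ord (bev b') = ord (bev b) + 0 - ord (x-c) < ord (bev b)`.
* [S27/CH-M3c] `Model.ord_sub` (CH2c, ~60 lines): `π` with `P.ord π = 1` (`IsDiscreteValuationRing.exists_irreducible`, `Place.ord_coe_irreducible`); `π * bev b = bev a`, `b(c,y) ≠ 0`; so `ord (bev a) = 1`,
  `a(c,y) = 0`, `bev a * bev e = (x-c) bev a'`: `1 = ord (x-c) + ord (bev a')`, both `≥ 0`, the first `≥ 1`.
* [S27/CH-M3d] `Model.place_unique` (CH2d, ~50 lines): `O_P ≤ O_P'` by `exists_quot` (`z = bev a / bev b`, `val P' (bev b) = b(c,y) ≠ 0` so `bev b` is a unit at `P'`), symmetric; `Place.ext`.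
* [S27/CH-M4] `Model.bad_finite` (~80 lines): `w := bev (derivative f) ≠ 0` (`f ∣ f'` is impossible: `f` monic of degree `≥ 1` [`f = 1` contradicts `bev f = 0`], `natDegree_derivative_lt`,
  `derivative f ≠ 0` in char. `0`).  `h.hasPrincipalDivisors` : `{P | P.ord w ≠ 0}` is finite.  `c ∈ bad` → `(c,y)` → place `P` (`exists_place`) with `val P w = 0`, i.e. `0 < P.ord w`, and `c = val P x`:
  `bad ⊆ (fun P => val P x) '' {P | P.ord w ≠ 0}`.
-/

set_option autoImplicit false

noncomputable section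

namespace Fermat.Agent.S27

open AlgebraicCurve Fermat.Agent.S37 Polynomial IntermediateField

variable {F : Type*} [Field F] [Algebra ℂ F]

/-- `N(x,u)` -/
def bev (x u : F) : ℂ[X][X] →+* F := eval₂RingHom (aeval x : ℂ[X] →ₐ[ℂ] F).toRingHom u

theorem bev_C (x u : F) (p : ℂ[X]) : bev x u (C p) = aeval x p := by simp [bev]

theorem bev_X (x u : F) : bev x u X = u := by simp [bev]

theorem bev_CX (x u : F) : bev x u (C X) = x := by simp [bev]

theorem bev_CC (x u : F) (a : ℂ) : bev x u (C (C a)) = algebraMap ℂ F a := by simp [bev]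

theorem m1_reg_aeval (P : Place ℂ F) {x : F} (hx : Reg P x) (p : ℂ[X]) : Reg P (aeval x p) := by
  induction p using Polynomial.induction_on' with
  | add p q hp hq =>
    rw [map_add]
    exact P.toValuationSubring.add_mem _ _ hp hq
  | monomial n a =>
    rw [aeval_monomial]
    exact P.toValuationSubring.mul_mem _ _ (P.algebraMap_mem' a) (pow_mem hx n)

theorem m1_val_pow (h : IsFF ℂ F) (P : Place ℂ F) {x : F} (hx : Reg P x) (n : ℕ) :
    val P (x ^ n) = val P x ^ n := by
  induction n with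
  | zero => simpa using val_algebraMap h P 1
  | succ n ih => rw [pow_succ, val_mul h (pow_mem hx n) hx, ih, pow_succ]

theorem m1_val_aeval (h : IsFF ℂ F) (P : Place ℂ F) {x : F} (hx : Reg P x) (p : ℂ[X]) :
    val P (aeval x p) = eval (val P x) p := by
  induction p using Polynomial.induction_on' with
  | add p q hp hq =>
    rw [map_add, val_add h (m1_reg_aeval P hx p) (m1_reg_aeval P hx q), hp, hq, eval_add]
  | monomial n a =>
    rw [aeval_monomial, val_mul h (P.algebraMap_mem' a) (pow_mem hx n), val_algebraMap h,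
      m1_val_pow h P hx, eval_monomial]

theorem reg_bev (P : Place ℂ F) {x u : F} (hx : Reg P x) (hu : Reg P u) (N : ℂ[X][X]) :
    Reg P (bev x u N) := by
  induction N using Polynomial.induction_on' with
  | add p q hp hq =>
    rw [map_add]
    exact P.toValuationSubring.add_mem _ _ hp hq
  | monomial n a =>
    rw [← C_mul_X_pow_eq_monomial, map_mul, map_pow, bev_C, bev_X]
    exact P.toValuationSubring.mul_mem _ _ (m1_reg_aeval P hx a) (pow_mem hu n)

theorem val_bev (h : IsFF ℂ F) (P : Place ℂ F) {x u : F} (hx : Reg P x) (hu : Reg P u)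
    (N : ℂ[X][X]) : val P (bev x u N) = evalEval (val P x) (val P u) N := by
  induction N using Polynomial.induction_on' with
  | add p q hp hq =>
    rw [map_add, val_add h (reg_bev P hx hu p) (reg_bev P hx hu q), hp, hq]
    simp [evalEval]
  | monomial n a =>
    rw [← C_mul_X_pow_eq_monomial, map_mul, map_pow, bev_C, bev_X,
      val_mul h (m1_reg_aeval P hx a) (pow_mem hu n), m1_val_aeval h P hx, m1_val_pow h P hu]
    simp [evalEval]

/-- a plane model of `F` -/
structure Model (F : Type*) [Field F] [Algebra ℂ F] where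
  x : F
  u : F
  f : ℂ[X][X]
  tr : Transcendental ℂ x
  fin : FiniteDimensional ℂ⟮x⟯ F
  monic : f.Monic
  zero : bev x u f = 0
  dvd : ∀ N : ℂ[X][X], bev x u N = 0 → f ∣ N
  frac : ∀ z : F, ∃ a b : ℂ[X][X], bev x u b ≠ 0 ∧ z * bev x u b = bev x u a
  int : ∀ P : Place ℂ F, Reg P x → Reg P u

namespace Model

theorem isFF (M : Model F) : IsFF ℂ F := ⟨M.x, M.tr, M.fin⟩

variable (M : Model F)

/-- the values `c` such that `f(c,·)` has a multiple root -/
def bad : Set ℂ := {c | ∃ y, evalEval c y M.f = 0 ∧ evalEval c y (derivative M.f) = 0}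

/-- `P` lies over the point `(c,y)` -/
def Over (P : Place ℂ F) (c y : ℂ) : Prop := Reg P M.x ∧ val P M.x = c ∧ val P M.u = y

variable {M}

theorem Over.reg_u {P : Place ℂ F} {c y : ℂ} (h : M.Over P c y) : Reg P M.u := M.int P h.1

theorem Over.reg {P : Place ℂ F} {c y : ℂ} (h : M.Over P c y) (N : ℂ[X][X]) :
    Reg P (bev M.x M.u N) := reg_bev P h.1 h.reg_u N

theorem Over.val {P : Place ℂ F} {c y : ℂ} (h : M.Over P c y) (N : ℂ[X][X]) :
    val P (bev M.x M.u N) = evalEval c y N := by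
  rw [val_bev M.isFF P h.1 h.reg_u, h.2.1, h.2.2]

theorem Over.eval_f {P : Place ℂ F} {c y : ℂ} (h : M.Over P c y) : evalEval c y M.f = 0 := by
  rw [← h.val, M.zero]
  simpa using val_algebraMap M.isFF P 0

theorem Over.ne_zero {P : Place ℂ F} {c y : ℂ} (h : M.Over P c y) {N : ℂ[X][X]}
    (hN : evalEval c y N ≠ 0) : bev M.x M.u N ≠ 0 := by
  intro h0
  apply hN
  rw [← h.val, h0]
  simpa using val_algebraMap M.isFF P 0

theorem Over.ord_eq_zero {P : Place ℂ F} {c y : ℂ} (h : M.Over P c y) {N : ℂ[X][X]}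
    (hN : evalEval c y N ≠ 0) : P.ord (bev M.x M.u N) = 0 := by
  have hnv : ¬ Van P (bev M.x M.u N) := fun hv =>
    hN (by rw [← h.val N]; exact (val_eq_zero_iff M.isFF (h.reg N)).mpr hv)
  have h1 : 0 ≤ P.ord (bev M.x M.u N) := reg_iff.mp (h.reg N)
  have h2 : ¬ 0 < P.ord (bev M.x M.u N) := fun h => hnv (Or.inr h)
  omega

theorem Over.van {P : Place ℂ F} {c y : ℂ} (h : M.Over P c y) {N : ℂ[X][X]}
    (hN : evalEval c y N = 0) : Van P (bev M.x M.u N) :=
  (val_eq_zero_iff M.isFF (h.reg N)).mp (by rw [h.val, hN])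

theorem sub_ne_zero' (M : Model F) (c : ℂ) : M.x - algebraMap ℂ F c ≠ 0 := by
  intro h0
  exact M.tr (by rw [sub_eq_zero.mp h0]; exact isAlgebraic_algebraMap c)

theorem Over.ord_sub_pos {P : Place ℂ F} {c y : ℂ} (h : M.Over P c y) :
    0 < P.ord (M.x - algebraMap ℂ F c) := by
  have h1 := van_sub_val M.isFF h.1
  rw [h.2.1] at h1
  exact h1.resolve_left (M.sub_ne_zero' c)

variable (M)

theorem over_of_reg {P : Place ℂ F} (h : Reg P M.x) : M.Over P (val P M.x) (val P M.u) :=
  ⟨h, rfl, rfl⟩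

/-- [S27/CH-M2] (CH1) every point of the curve carries a place -/
theorem exists_place (c y : ℂ) (h : evalEval c y M.f = 0) : ∃ P : Place ℂ F, M.Over P c y := by
  have hFF := M.isFF
  let ε : ℂ[X][X] →+* ℂ := evalEvalRingHom c y
  have hprime : (RingHom.ker ε).IsPrime := RingHom.ker_isPrime ε
  have hunit : ∀ N : (RingHom.ker ε).primeCompl, IsUnit (bev M.x M.u N) := by
    intro N
    apply IsUnit.mk0
    intro h0
    obtain ⟨q, hq⟩ := M.dvd _ h0
    apply N.2
    show ε N = 0
    rw [hq, map_mul]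
    show evalEval c y M.f * _ = 0
    rw [h, zero_mul]
  let φ : Localization.AtPrime (RingHom.ker ε) →+* F :=
    IsLocalization.lift (M := (RingHom.ker ε).primeCompl) (g := bev M.x M.u) hunit
  obtain ⟨O, hO, hloc⟩ := IsLocalRing.exists_factor_valuationRing (R := Localization.AtPrime (RingHom.ker ε)) φ
  have hφ : ∀ N, φ (algebraMap _ _ N) = bev M.x M.u N := fun N => IsLocalization.lift_eq _ N
  have hmem : ∀ N, bev M.x M.u N ∈ O := fun N => hφ N ▸ hO _
  have hnon : ∀ N, ε N = 0 → ¬ IsUnit (⟨bev M.x M.u N, hmem N⟩ : O) := by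
    intro N hN hu
    have hcod : φ.codRestrict O.toSubring hO (algebraMap _ _ N) = (⟨bev M.x M.u N, hmem N⟩ : O) :=
      Subtype.ext (hφ N)
    rw [← hcod] at hu
    have h1 := hloc.map_nonunit _ hu
    rw [IsLocalization.AtPrime.isUnit_to_map_iff (Localization.AtPrime (RingHom.ker ε))
      (RingHom.ker ε) N] at h1
    exact h1 hN
  have hK : ∀ a : ℂ, algebraMap ℂ F a ∈ O := fun a => by rw [← bev_CC M.x M.u]; exact hmem _
  have hxO : M.x ∈ O := by rw [← bev_CX M.x M.u]; exact hmem _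
  have hxc : bev M.x M.u (C (X - C c)) = M.x - algebraMap ℂ F c := by
    rw [C_sub, map_sub, bev_CX, bev_CC]
  have huy : bev M.x M.u (X - C (C y)) = M.u - algebraMap ℂ F y := by
    rw [map_sub, bev_X, bev_CC]
  have hxc0 : M.x - algebraMap ℂ F c ≠ 0 := by
    intro h0
    exact M.tr (by rw [sub_eq_zero.mp h0]; exact isAlgebraic_algebraMap c)
  have hOtop : O ≠ ⊤ := by
    intro htop
    apply hnon (C (X - C c)) (by simp [ε])
    have hinv : (M.x - algebraMap ℂ F c)⁻¹ ∈ O := by rw [htop]; exact ValuationSubring.mem_top _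
    refine IsUnit.of_mul_eq_one (⟨_, hinv⟩ : O) (Subtype.ext ?_)
    show bev M.x M.u (C (X - C c)) * (M.x - algebraMap ℂ F c)⁻¹ = 1
    rw [hxc, mul_inv_cancel₀ hxc0]
  obtain ⟨P, hP⟩ := S24.exists_place_of_valuationSubring M.x M.tr M.fin O hOtop hK hxO
  have hvan : ∀ N, ε N = 0 → Van P (bev M.x M.u N) := by
    intro N hN
    by_cases h0 : bev M.x M.u N = 0
    · exact Or.inl h0
    right
    by_contra hle
    have h1 : 0 ≤ P.ord (bev M.x M.u N)⁻¹ := by rw [Place.ord_inv]; omega
    have h2 : (bev M.x M.u N)⁻¹ ∈ O := by rw [← hP]; exact (S24.mem_iff_ord_nonneg P).mpr h1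
    apply hnon N hN
    refine IsUnit.of_mul_eq_one (⟨_, h2⟩ : O) (Subtype.ext ?_)
    show bev M.x M.u N * (bev M.x M.u N)⁻¹ = 1
    exact mul_inv_cancel₀ h0
  refine ⟨P, by show M.x ∈ P.toValuationSubring; rw [hP]; exact hxO, ?_, ?_⟩
  · apply val_eq_of_van hFF
    rw [← hxc]
    exact hvan _ (by simp [ε])
  · apply val_eq_of_van hFF
    rw [← huy]
    exact hvan _ (by simp [ε])

/-- [S27/CH-M3a] (CH2a) -/
theorem mul_eq (c y : ℂ) (hf : evalEval c y M.f = 0) : ∃ e : ℂ[X][X],
    evalEval c y e = evalEval c y (derivative M.f) ∧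
    ∀ N : ℂ[X][X], evalEval c y N = 0 → ∃ N' : ℂ[X][X],
      bev M.x M.u N * bev M.x M.u e = (M.x - algebraMap ℂ F c) * bev M.x M.u N' := by
  obtain ⟨f₁, f₂, hfd, hf2⟩ := biv_decomp M.f c y
  refine ⟨f₂, hf2, fun N hN => ?_⟩
  obtain ⟨N₁, N₂, hNd, -⟩ := biv_decomp N c y
  refine ⟨N₁ * f₂ - f₁ * N₂, ?_⟩
  rw [hf] at hfd
  rw [hN] at hNd
  have h1 : bev M.x M.u M.f = (M.x - algebraMap ℂ F c) * bev M.x M.u f₁ +
      (M.u - algebraMap ℂ F y) * bev M.x M.u f₂ := by
    conv_lhs => rw [hfd]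
    simp only [map_add, map_mul, map_sub, bev_CX, bev_CC, bev_X, map_zero, add_zero]
  have h2 : bev M.x M.u N = (M.x - algebraMap ℂ F c) * bev M.x M.u N₁ +
      (M.u - algebraMap ℂ F y) * bev M.x M.u N₂ := by
    conv_lhs => rw [hNd]
    simp only [map_add, map_mul, map_sub, bev_CX, bev_CC, bev_X, map_zero, add_zero]
  rw [M.zero] at h1
  rw [h2, map_sub, map_mul, map_mul]
  linear_combination (- bev M.x M.u N₂) * h1

/-- [S27/CH-M3b] (CH2b) the local ring of a smooth point is the local ring of the plane curve -/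
theorem exists_quot {P : Place ℂ F} {c y : ℂ} (h : M.Over P c y)
    (hs : evalEval c y (derivative M.f) ≠ 0) {z : F} (hz : Reg P z) :
    ∃ a b : ℂ[X][X], evalEval c y b ≠ 0 ∧ z * bev M.x M.u b = bev M.x M.u a := by
  have hFF := M.isFF
  obtain ⟨e, he, hmul⟩ := M.mul_eq c y h.eval_f
  have hxc0 := M.sub_ne_zero' c
  have hxcpos := h.ord_sub_pos
  have hee : evalEval c y e ≠ 0 := he ▸ hs
  have he0 := h.ne_zero hee
  have hord_e := h.ord_eq_zero hee
  have key : ∀ n : ℕ, ∀ a b : ℂ[X][X], bev M.x M.u b ≠ 0 → z * bev M.x M.u b = bev M.x M.u a →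
      (P.ord (bev M.x M.u b)).toNat = n →
      ∃ a b : ℂ[X][X], evalEval c y b ≠ 0 ∧ z * bev M.x M.u b = bev M.x M.u a := by
    intro n
    induction n using Nat.strong_induction_on with
    | _ n ih =>
      intro a b hb0 hab hn
      by_cases hb : evalEval c y b = 0
      · have hbpos : 0 < P.ord (bev M.x M.u b) := (h.van hb).resolve_left hb0
        have ha : evalEval c y a = 0 := by
          rw [← h.val a, ← hab, val_mul hFF hz (h.reg b), h.val b, hb, mul_zero]
        obtain ⟨a', ha'⟩ := hmul a ha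
        obtain ⟨b', hb'⟩ := hmul b hb
        have hb'0 : bev M.x M.u b' ≠ 0 := by
          intro h0
          rw [h0, mul_zero] at hb'
          exact (mul_ne_zero hb0 he0) hb'
        have hab' : z * bev M.x M.u b' = bev M.x M.u a' := by
          apply mul_left_cancel₀ hxc0
          calc (M.x - algebraMap ℂ F c) * (z * bev M.x M.u b')
              = z * ((M.x - algebraMap ℂ F c) * bev M.x M.u b') := by ring
            _ = z * (bev M.x M.u b * bev M.x M.u e) := by rw [hb']
            _ = (z * bev M.x M.u b) * bev M.x M.u e := by ring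
            _ = bev M.x M.u a * bev M.x M.u e := by rw [hab]
            _ = (M.x - algebraMap ℂ F c) * bev M.x M.u a' := ha'
        have hord : P.ord (bev M.x M.u b) = P.ord (M.x - algebraMap ℂ F c) +
            P.ord (bev M.x M.u b') := by
          have := congrArg P.ord hb'
          rw [P.ord_mul hb0 he0, P.ord_mul hxc0 hb'0, hord_e, add_zero] at this
          exact this
        have hb'nn : 0 ≤ P.ord (bev M.x M.u b') := reg_iff.mp (h.reg b')
        exact ih _ (by omega) a' b' hb'0 hab' rfl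
      · exact ⟨a, b, hb, hab⟩
  obtain ⟨a, b, hb0, hab⟩ := M.frac z
  exact key _ a b hb0 hab rfl

/-- [S27/CH-M3c] (CH2c) `x - c` is a uniformiser at a smooth point -/
theorem ord_sub {P : Place ℂ F} {c y : ℂ} (h : M.Over P c y)
    (hs : evalEval c y (derivative M.f) ≠ 0) : P.ord (M.x - algebraMap ℂ F c) = 1 := by
  obtain ⟨e, he, hmul⟩ := M.mul_eq c y h.eval_f
  have hxc0 := M.sub_ne_zero' c
  have hxcpos := h.ord_sub_pos
  have hee : evalEval c y e ≠ 0 := he ▸ hs
  have he0 := h.ne_zero hee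
  have hord_e := h.ord_eq_zero hee
  obtain ⟨π, hπ⟩ := IsDiscreteValuationRing.exists_irreducible P.toValuationSubring
  have hπord : P.ord (π : F) = 1 := P.ord_coe_irreducible hπ
  have hπ0 : (π : F) ≠ 0 := by
    intro h0
    rw [h0, Place.ord_zero] at hπord
    exact zero_ne_one hπord
  obtain ⟨a, b, hb, hab⟩ := M.exists_quot h hs (z := (π : F)) π.2
  have hb0 := h.ne_zero hb
  have hordb := h.ord_eq_zero hb
  have horda : P.ord (bev M.x M.u a) = 1 := by
    rw [← hab, P.ord_mul hπ0 hb0, hπord, hordb, add_zero]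
  have ha0 : bev M.x M.u a ≠ 0 := by
    intro h0
    rw [h0, Place.ord_zero] at horda
    exact zero_ne_one horda
  have ha : evalEval c y a = 0 := by
    by_contra hne
    rw [h.ord_eq_zero hne] at horda
    exact zero_ne_one horda
  obtain ⟨a', ha'⟩ := hmul a ha
  have ha'0 : bev M.x M.u a' ≠ 0 := by
    intro h0
    rw [h0, mul_zero] at ha'
    exact (mul_ne_zero ha0 he0) ha'
  have h1 := congrArg P.ord ha'
  rw [P.ord_mul ha0 he0, P.ord_mul hxc0 ha'0, hord_e, horda] at h1
  have h2 : 0 ≤ P.ord (bev M.x M.u a') := reg_iff.mp (h.reg a')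
  omega

/-- [S27/CH-M3d] (CH2d) -/
theorem place_unique {P P' : Place ℂ F} {c y : ℂ} (h : M.Over P c y) (h' : M.Over P' c y)
    (hs : evalEval c y (derivative M.f) ≠ 0) : P = P' := by
  have key : ∀ {P P' : Place ℂ F}, M.Over P c y → M.Over P' c y →
      P.toValuationSubring ≤ P'.toValuationSubring := by
    intro P P' h h' z hz
    obtain ⟨a, b, hb, hab⟩ := M.exists_quot h hs (z := z) hz
    have hb0 := h'.ne_zero hb
    have hinv : Reg P' (bev M.x M.u b)⁻¹ :=
      reg_iff.mpr (by rw [Place.ord_inv, h'.ord_eq_zero hb]; simp)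
    have hzeq : z = bev M.x M.u a * (bev M.x M.u b)⁻¹ := by
      rw [← hab, mul_assoc, mul_inv_cancel₀ hb0, mul_one]
    rw [hzeq]
    exact P'.toValuationSubring.mul_mem _ _ (h'.reg a) hinv
  exact Place.ext (le_antisymm (key h h') (key h' h))

/-- [S27/CH-M4] -/
theorem bad_finite : M.bad.Finite := by
  have hFF := M.isFF
  have hdeg : M.f.natDegree ≠ 0 := by
    intro h0
    have h1 : M.f = 1 := M.monic.natDegree_eq_zero.mp h0
    have h2 := M.zero
    rw [h1, map_one] at h2
    exact one_ne_zero h2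
  have hw : bev M.x M.u (derivative M.f) ≠ 0 := by
    intro h0
    have h1 := M.dvd _ h0
    have h2 : derivative M.f = 0 :=
      eq_zero_of_dvd_of_natDegree_lt h1 (natDegree_derivative_lt hdeg)
    have h3 := Polynomial.derivative_eq_zero.mp h2
    exact hdeg h3
  obtain ⟨D, hD, -⟩ := hFF.hasPrincipalDivisors.exists_divisor _ hw
  refine (D.support.finite_toSet.image fun P : Place ℂ F => val P M.x).subset ?_
  rintro c ⟨y, hf, hd⟩
  obtain ⟨P, hP⟩ := M.exists_place c y hf
  refine ⟨P, ?_, hP.2.1⟩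
  have h1 : 0 < P.ord (bev M.x M.u (derivative M.f)) := (hP.van hd).resolve_left hw
  rw [Finset.mem_coe, Finsupp.mem_support_iff, hD]
  omega

end Model

end Fermat.Agent.S27
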